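import Mathlib

/-!
# S43 / MID / BC : base change `X ↦ k ⊗ X` of a finite `𝔽_p[G]`-module (pure Mathlib)

`X` a `ZMod p`-module, `k` a field extension of `ZMod p`.

* `bc p k X : AddMonoid.End X →+* End_k (k ⊗ X)` (every additive endomorphism is `ZMod p`-linear);
* `rk p k X G : G →* End_k (k ⊗ X)` for a group acting on `X`;
* `coord b j : k ⊗ X →+ X` the coordinates with respect to a basis `b` of `k / ZMod p`; they commute with `bc f`;
* transfer lemmas: `bc_ker` (implications between kernels), `bc_injective`, `one_tmul_eq_zero_iff`, `pow_finrank_le_card`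
  (dimension of a common kernel), `embed` (`k ⊗ X` embeds in `X ^ [k : 𝔽_p]`, compatibly with all `bc f`).
-/

set_option autoImplicit false

namespace Fermat.Agent.S43.Mid

open scoped TensorProduct

section BC

variable (p : ℕ) [Fact p.Prime] (k : Type*) [Field k] [Algebra (ZMod p) k]
  (X : Type*) [AddCommGroup X] [Module (ZMod p) X]

/-- additive endomorphisms are `ZMod p`-linear. -/
def linOf : AddMonoid.End X →+* Module.End (ZMod p) X where
  toFun f := AddMonoidHom.toZModLinearMap p f
  map_one' := rfl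
  map_mul' _ _ := rfl
  map_zero' := rfl
  map_add' _ _ := rfl

theorem linOf_apply (f : AddMonoid.End X) (x : X) : linOf p X f x = f x := rfl

/-- base change of an additive endomorphism. -/
noncomputable def bc : AddMonoid.End X →+* Module.End k (k ⊗[ZMod p] X) :=
  (Module.End.baseChangeHom (ZMod p) k X).toRingHom.comp (linOf p X)

theorem bc_tmul (f : AddMonoid.End X) (c : k) (x : X) :
    bc p k X f (c ⊗ₜ[ZMod p] x) = c ⊗ₜ[ZMod p] f x := rfl

theorem natCast_smul_bc (d : ℕ) (f : AddMonoid.End X) :
    (d : k) • bc p k X f = bc p k X (d • f) := by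
  rw [map_nsmul, Nat.cast_smul_eq_nsmul]

theorem intCast_smul_bc (d : ℤ) (f : AddMonoid.End X) :
    (d : k) • bc p k X f = bc p k X (d • f) := by
  rw [map_zsmul]
  exact Int.cast_smul_eq_zsmul k d (bc p k X f)

theorem bc_intCast (d : ℤ) :
    bc p k X (d : AddMonoid.End X) = algebraMap k (Module.End k (k ⊗[ZMod p] X)) (d : k) := by
  rw [map_intCast, map_intCast]

variable {p k X}
variable {ι : Type*} [DecidableEq ι] (b : Module.Basis ι (ZMod p) k)

/-- the coordinates of an element of `k ⊗ X`. -/
noncomputable def coord (j : ι) : k ⊗[ZMod p] X →+ X :=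
  (Finsupp.applyAddHom j).comp (TensorProduct.equivFinsuppOfBasisLeft (N := X) b).toLinearMap.toAddMonoidHom

theorem coord_tmul (j : ι) (c : k) (x : X) : coord b j (c ⊗ₜ[ZMod p] x) = b.repr c j • x := by
  simp [coord, TensorProduct.equivFinsuppOfBasisLeft_apply_tmul]

theorem coord_bc (j : ι) (f : AddMonoid.End X) (v : k ⊗[ZMod p] X) :
    coord b j (bc p k X f v) = f (coord b j v) := by
  induction v using TensorProduct.induction_on with
  | zero => simp
  | add v w hv hw => rw [map_add, map_add, hv, hw, map_add, map_add]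
  | tmul c x =>
    rw [bc_tmul, coord_tmul, coord_tmul]
    exact ((linOf p X f).map_smul _ _).symm

theorem eq_zero_of_coord (v : k ⊗[ZMod p] X) (h : ∀ j, coord b j v = 0) : v = 0 := by
  apply (TensorProduct.equivFinsuppOfBasisLeft (N := X) b).injective
  rw [map_zero]
  ext j
  exact h j

theorem eq_of_coord {v w : k ⊗[ZMod p] X} (h : ∀ j, coord b j v = coord b j w) : v = w := by
  rw [← sub_eq_zero]
  apply eq_zero_of_coord b
  intro j
  rw [map_sub, h j, sub_self]

/-- **transfer of an implication between kernels.** -/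
theorem bc_ker {ι' : Type*} (F : ι' → AddMonoid.End X) (g : AddMonoid.End X)
    (h : ∀ x, (∀ i, F i x = 0) → g x = 0) (v : k ⊗[ZMod p] X)
    (hv : ∀ i, bc p k X (F i) v = 0) : bc p k X g v = 0 := by
  classical
  let b := Module.Basis.ofVectorSpace (ZMod p) k
  apply eq_zero_of_coord b
  intro j
  rw [coord_bc]
  apply h
  intro i
  rw [← coord_bc, hv i, map_zero]

theorem one_tmul_eq_zero_iff (x : X) : (1 : k) ⊗ₜ[ZMod p] x = 0 ↔ x = 0 :=
  Module.FaithfullyFlat.one_tmul_eq_zero_iff (R := ZMod p) (A := k) (M := X) x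

theorem bc_injective : Function.Injective (bc p k X) := by
  rw [injective_iff_map_eq_zero]
  intro f hf
  apply AddMonoidHom.ext
  intro x
  have h := LinearMap.congr_fun hf ((1 : k) ⊗ₜ[ZMod p] x)
  rw [bc_tmul, LinearMap.zero_apply, one_tmul_eq_zero_iff] at h
  exact h

/-- **dimension of a common kernel.** -/
theorem pow_finrank_le_card [Finite k] [Finite X] {ι' : Type*} (F : ι' → AddMonoid.End X)
    (U : Submodule k (k ⊗[ZMod p] X)) (hU : ∀ v ∈ U, ∀ i, bc p k X (F i) v = 0) :
    p ^ Module.finrank k U ≤ Nat.card {x : X // ∀ i, F i x = 0} := by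
  classical
  let b := Module.finBasis (ZMod p) k
  set m := Module.finrank (ZMod p) k with hm
  have hm0 : m ≠ 0 := (Module.finrank_pos (R := ZMod p) (M := k)).ne'
  have : Finite (k ⊗[ZMod p] X) := Module.finite_of_finite (ZMod p)
  let φ : U → (Fin m → {x : X // ∀ i, F i x = 0}) := fun v j =>
    ⟨coord b j v.1, fun i => by rw [← coord_bc, hU v.1 v.2 i, map_zero]⟩
  have hφ : Function.Injective φ := by
    intro v w hvw
    apply Subtype.ext
    apply eq_of_coord b
    intro j
    exact congrArg Subtype.val (congrFun hvw j)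
  have h1 : Nat.card U ≤ Nat.card (Fin m → {x : X // ∀ i, F i x = 0}) :=
    Nat.card_le_card_of_injective φ hφ
  rw [Nat.card_fun, Nat.card_eq_fintype_card (α := Fin m), Fintype.card_fin] at h1
  have h2 : Nat.card U = Nat.card k ^ Module.finrank k U :=
    Module.natCard_eq_pow_finrank (K := k) (V := U)
  have h3 : Nat.card k = Nat.card (ZMod p) ^ m :=
    Module.natCard_eq_pow_finrank (K := ZMod p) (V := k)
  rw [Nat.card_zmod] at h3
  rw [h2, h3, ← pow_mul, mul_comm, pow_mul] at h1
  exact (Nat.pow_le_pow_iff_left hm0).1 h1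

/-- `k ⊗ X` embeds in a power of `X`, compatibly with all endomorphisms. -/
theorem exists_embed [Finite k] :
    ∃ (m : ℕ) (e : k ⊗[ZMod p] X →+ (Fin m → X)), Function.Injective e ∧
      ∀ (f : AddMonoid.End X) (v : k ⊗[ZMod p] X) (j : Fin m), e (bc p k X f v) j = f (e v j) := by
  let b := Module.finBasis (ZMod p) k
  refine ⟨Module.finrank (ZMod p) k, AddMonoidHom.pi fun j => coord b j, ?_, ?_⟩
  · intro v w h
    apply eq_of_coord b
    intro j
    exact congrFun h j
  · intro f v j
    exact coord_bc b j f v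

end BC

section Act

variable (p : ℕ) [Fact p.Prime] (k : Type*) [Field k] [Algebra (ZMod p) k]
  (X : Type*) [AddCommGroup X] [Module (ZMod p) X] (G : Type*) [Group G] [DistribMulAction G X]

/-- the action of `G` on `k ⊗ X`. -/
noncomputable def rk : G →* Module.End k (k ⊗[ZMod p] X) :=
  (bc p k X).toMonoidHom.comp (DistribMulAction.toAddMonoidEnd G X)

theorem rk_eq (g : G) : rk p k X G g = bc p k X (DistribMulAction.toAddMonoidEnd G X g) := rfl

theorem rk_tmul (g : G) (c : k) (x : X) :
    rk p k X G g (c ⊗ₜ[ZMod p] x) = c ⊗ₜ[ZMod p] (g • x) := rfl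

end Act

end Fermat.Agent.S43.Mid
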