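import Fermat.Agent.S43.Mid.BC
import Fermat.Agent.S43.GMA.TraceAlg
import Fermat.Agent.S43.GMA.Res
import Fermat.Agent.S43.GMA.CH
import Fermat.Agent.S43.BigImg.Det
import Fermat.Agent.S56.T.Mat
import Fermat.Agent.S56.T.MatIrr

/-!
# S43 / MID / Main : the concrete instantiation of the GMA theorem

`P` a Frey package, `p = P.p`, `k = kk P = 𝔽_{p²}`, `rb P = T.matRep (rho P) : G_ℚ → GL₂(k)` (`= E[p] ⊗ k`),
`chi P = det ∘ rb P`, `tau P = tr ∘ rb P`.

`X` a finite `𝔽_p[G_ℚ]`-module with `QuadHyp P X` : for every `g` there are an additive endomorphism `t` of `X` commuting with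
`G_ℚ`, integers `τ`, `d` with `g² - t g + d = 0` on `X`, `t - τ` locally nilpotent on `X`, `g = ( )^d` on `μ_p` and
`g² - τ g + d = 0` on `E[p]` (this is exactly what `CH.ch_common` + `CH.trace_sub_pow_apply` give on the generalised
`θ`-part of `V_p(F(n))` : `quadHyp_sub`).

Then (`central`, `nilAt`, `mid_main`) : with `V = k ⊗ X`, `A = GMA.TrAlg (central ..)` (local artinian `k`-algebra generated by the
traces, `GMA.res : A →ₐ[k] k`) there are `ρ : G_ℚ →* GL₂(A)` lifting `rb P` EXACTLY, `L ≤ V` faithful and `V ≃ L²`.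
-/

set_option autoImplicit false

noncomputable section

namespace Fermat.Agent.S43.Mid

open Fermat.Agent.GAL Fermat.Agent.MR.E Fermat.Agent.MR.Glue Fermat.Agent.S43.BigImg
open Fermat.Agent.S43.GMA Fermat.Agent.S43.Exact Fermat.Agent.S56
open AlgebraicCurve ModularCurve Fermat.Agent.S24
open WeierstrassCurve WeierstrassCurve.Affine WeierstrassCurve.Affine.Point
open scoped TensorProduct

/-- `E[p] ⊗ 𝔽_{p²}` in matrix form. -/
def rb (P : FreyPackage) : GQ →* GL (Fin 2) (kk P) := T.matRep (rho P)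

/-- its determinant. -/
def chi (P : FreyPackage) : GQ →* (kk P)ˣ := Matrix.GeneralLinearGroup.det.comp (rb P)

/-- its trace. -/
def tau (P : FreyPackage) (g : GQ) : kk P := (rb P g).1.trace

/-- the ring homomorphism `End(E[p]) → M₂(k)`. -/
def toM2 (P : FreyPackage) : Module.End (ZMod P.p) (rhoFp P).V →+* Matrix (Fin 2) (Fin 2) (kk P) :=
  (LinearMap.toMatrixAlgEquiv (T.bas (rho P))).toRingEquiv.toRingHom.comp
    (Module.End.baseChangeHom (ZMod P.p) (kk P) (rhoFp P).V).toRingHom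

theorem toM2_rho (P : FreyPackage) (g : GQ) : toM2 P ((rhoFp P).ρ g) = (rb P g).1 := rfl

theorem chi_val (P : FreyPackage) (g : GQ) : ((chi P g : (kk P)ˣ) : kk P) = (rb P g).1.det := rfl

theorem chi_eq (P : FreyPackage)
    (hirr : GaloisRepIsIrreducible (K := AlgebraicClosure ℚ) ℚ P.freyCurve P.p)
    {g : GQ} {d : ℕ} (hd : Cyc P g d) : ((chi P g : (kk P)ˣ) : kk P) = d := by
  have h1 : ((chi P g : (kk P)ˣ) : kk P) = LinearMap.det ((rho P).ρ g) := T.det_matRep (rho P) g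
  have h2 : LinearMap.det ((rho P).ρ g) =
      algebraMap (ZMod P.p) (kk P) (LinearMap.det ((rhoFp P).ρ g)) := LinearMap.det_baseChange _
  rw [h1, h2, det_Ep P hirr g d hd, map_natCast]

theorem tau_eq (P : FreyPackage)
    (hirr : GaloisRepIsIrreducible (K := AlgebraicClosure ℚ) ℚ P.freyCurve P.p)
    {g : GQ} {d : ℕ} {τ : ℤ} (hd : Cyc P g d)
    (hq : ∀ y : Ep P, g • g • y - τ • g • y + d • y = 0) : tau P g = τ := by
  set f : Module.End (ZMod P.p) (rhoFp P).V := (rhoFp P).ρ g with hf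
  have h1 : f * f - (τ : Module.End (ZMod P.p) (rhoFp P).V) * f
      + (d : Module.End (ZMod P.p) (rhoFp P).V) = 0 := by
    apply LinearMap.ext
    intro y
    have := hq y
    simp only [LinearMap.add_apply, LinearMap.sub_apply, Module.End.mul_apply,
      Module.End.intCast_apply, Module.End.natCast_apply, LinearMap.zero_apply]
    exact this
  have h2 := congrArg (toM2 P) h1
  rw [map_add, map_sub, map_mul, map_mul, map_intCast, map_natCast, _root_.map_zero, hf, toM2_rho] at h2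
  set M : Matrix (Fin 2) (Fin 2) (kk P) := (rb P g).1 with hM
  have h3 := Res.ch_fin_two M
  have hdet : M.det = d := by rw [hM, ← chi_val, chi_eq P hirr hd]
  rw [hdet] at h3
  have h4 : (M.trace - (τ : kk P)) • M = 0 := by
    have e1 : ((τ : ℤ) : Matrix (Fin 2) (Fin 2) (kk P)) * M = (τ : kk P) • M := by
      rw [← zsmul_eq_mul]
      exact (Int.cast_smul_eq_zsmul (kk P) τ M).symm
    have e2 : ((d : ℕ) : Matrix (Fin 2) (Fin 2) (kk P)) = (d : kk P) • 1 := by
      rw [Nat.cast_smul_eq_nsmul (kk P) d (1 : Matrix (Fin 2) (Fin 2) (kk P)), nsmul_eq_mul, mul_one]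
    rw [e1, e2] at h2
    rw [sub_smul]
    have := sub_eq_zero.2 (h2.trans h3.symm)
    rw [← this]
    abel
  have h5 : (M.trace - (τ : kk P)) • (1 : Matrix (Fin 2) (Fin 2) (kk P)) = 0 := by
    have := congrArg (fun Z => Z * ((rb P g)⁻¹ : GL (Fin 2) (kk P)).1) h4
    simpa [hM, smul_mul_assoc] using this
  have h6 := congrFun (congrFun h5 0) 0
  simp only [Matrix.smul_apply, Matrix.one_apply_eq, smul_eq_mul, mul_one, Matrix.zero_apply] at h6
  exact sub_eq_zero.1 h6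

/-- **the hypothesis on the `𝔽_p[G_ℚ]`-module `X`.** -/
def QuadHyp (P : FreyPackage) (X : Type*) [AddCommGroup X] [DistribMulAction GQ X] : Prop :=
  ∀ g : GQ, ∃ (t : AddMonoid.End X) (τ : ℤ) (d : ℕ),
    (∀ (h : GQ) (x : X), t (h • x) = h • t x) ∧
    (∀ x : X, g • g • x - t (g • x) + d • x = 0) ∧
    (∀ x : X, ∃ N : ℕ, ((t - (τ : AddMonoid.End X)) ^ N) x = 0) ∧
    Cyc P g d ∧
    (∀ y : Ep P, g • g • y - τ • g • y + d • y = 0)

section Abs

variable (P : FreyPackage) {X : Type*} [AddCommGroup X] [Module (ZMod P.p) X]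
  [DistribMulAction GQ X]

/-- the representation on `k ⊗ X`. -/
abbrev rV (X : Type*) [AddCommGroup X] [Module (ZMod P.p) X] [DistribMulAction GQ X] :
    GQ →* Module.End (kk P) (kk P ⊗[ZMod P.p] X) := rk P.p (kk P) X GQ

theorem tOp_eq_bc (hirr : GaloisRepIsIrreducible (K := AlgebraicClosure ℚ) ℚ P.freyCurve P.p)
    {g : GQ} {t : AddMonoid.End X} {d : ℕ}
    (h2 : ∀ x : X, g • g • x - t (g • x) + d • x = 0) (hd : Cyc P g d) :
    tOp (rV P X) (chi P) g = bc P.p (kk P) X t := by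
  rw [tOp, chi_eq P hirr hd, rk_eq, rk_eq, natCast_smul_bc, ← map_add]
  congr 1
  apply AddMonoidHom.ext
  intro x
  have := h2 (g⁻¹ • x)
  rw [smul_inv_smul] at this
  show g • x + d • g⁻¹ • x = t x
  rw [← sub_eq_zero, ← this]
  abel

theorem central (hirr : GaloisRepIsIrreducible (K := AlgebraicClosure ℚ) ℚ P.freyCurve P.p)
    (hq : QuadHyp P X) : Central (rV P X) (chi P) := by
  intro g h
  obtain ⟨t, τ, d, h1, h2, -, hd, -⟩ := hq g
  rw [tOp_eq_bc P hirr h2 hd, rk_eq, ← map_mul, ← map_mul]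
  congr 1
  apply AddMonoidHom.ext
  intro x
  exact h1 h x

theorem nilAt [Finite X]
    (hirr : GaloisRepIsIrreducible (K := AlgebraicClosure ℚ) ℚ P.freyCurve P.p)
    (hq : QuadHyp P X) : NilAt (rV P X) (chi P) (tau P) := by
  intro g
  obtain ⟨t, τ, d, -, h2, h3, hd, h5⟩ := hq g
  rw [tOp_eq_bc P hirr h2 hd, tau_eq P hirr hd h5, ← bc_intCast,
    ← (map_sub (bc P.p (kk P) X) t (τ : AddMonoid.End X))]
  apply IsNilpotent.map
  have := Fintype.ofFinite X
  choose N hN using h3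
  refine ⟨∑ x, N x, ?_⟩
  apply AddMonoidHom.ext
  intro x
  have hle : N x ≤ ∑ y, N y := Finset.single_le_sum (f := N) (fun _ _ => Nat.zero_le _) (Finset.mem_univ x)
  obtain ⟨m, hm⟩ := Nat.exists_eq_add_of_le hle
  rw [hm, add_comm, pow_add]
  show ((t - (τ : AddMonoid.End X)) ^ m) (((t - (τ : AddMonoid.End X)) ^ N x) x) = 0
  rw [hN x, _root_.map_zero]

instance nontrivial_tensor [Nontrivial X] : Nontrivial (kk P ⊗[ZMod P.p] X) := by
  obtain ⟨x, hx⟩ := exists_ne (0 : X)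
  exact ⟨⟨(1 : kk P) ⊗ₜ[ZMod P.p] x, 0, fun h => hx ((one_tmul_eq_zero_iff x).1 h)⟩⟩

theorem exists_conj_chi
    (hirr : GaloisRepIsIrreducible (K := AlgebraicClosure ℚ) ℚ P.freyCurve P.p) :
    ∃ c : GQ, c * c = 1 ∧ chi P c = -1 := by
  obtain ⟨c, h1, h2⟩ := Cyclo.exists_conj_inv
  refine ⟨c, h1, Units.ext ?_⟩
  have hd : Cyc P c (P.p - 1) := by
    intro ζ hζ
    rw [h2 P.p ζ P.pp.ne_zero hζ]
    apply inv_eq_of_mul_eq_one_right
    rw [← pow_succ', Nat.sub_add_cancel P.pp.one_le, hζ]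
  rw [chi_eq P hirr hd, Nat.cast_sub P.pp.one_le, CharP.cast_eq_zero (kk P) P.p]
  simp

/-- **MID, main theorem.** -/
theorem mid_main [Finite X] [Nontrivial X]
    (hirr : GaloisRepIsIrreducible (K := AlgebraicClosure ℚ) ℚ P.freyCurve P.p)
    (hM : ∀ U : Submodule (kk P) (Fin 2 → kk P),
      (∀ g, ∀ u ∈ U, (rb P g).1.mulVec u ∈ U) → U = ⊥ ∨ U = ⊤)
    (hq : QuadHyp P X) :
    ∃ (ρ : GQ →* GL (Fin 2) (TrAlg (central P hirr hq)))
      (L : Submodule (TrAlg (central P hirr hq)) (kk P ⊗[ZMod P.p] X))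
      (Φ : (kk P ⊗[ZMod P.p] X) ≃ₗ[TrAlg (central P hirr hq)] (Fin 2 → L)),
      (∀ g w, Φ (rV P X g w) = matAct (ρ g).1 (Φ w)) ∧
      (∀ g, (ρ g).1.map (res (central P hirr hq) (nilAt P hirr hq)) = (rb P g).1) ∧
      (∀ g, (ρ g).1.trace = tA (central P hirr hq) g) ∧
      (∀ g, (ρ g).1.det = algebraMap (kk P) (TrAlg (central P hirr hq)) (chi P g)) ∧
      (∀ a : TrAlg (central P hirr hq), (∀ l : L, a • l = 0) → a = 0) ∧
      (∀ g g', rV P X g = rV P X g' → ρ g = ρ g') := by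
  set H := central P hirr hq
  set h2 := nilAt P hirr hq
  obtain ⟨c, hc, hχc⟩ := exists_conj_chi P hirr
  have h2k : (2 : kk P) ≠ 0 := by
    intro h
    have h2 : ((2 : ℕ) : kk P) = 0 := by exact_mod_cast h
    rw [CharP.cast_eq_zero_iff (kk P) P.p 2] at h2
    have := Nat.le_of_dvd (by norm_num) h2
    have := P.hp5
    omega
  obtain ⟨ρ, L, Φ, a1, a2, a3, a4, a5, a6⟩ := Res.gma_res h2k (res H h2)
    (fun a ha => (isUnit_iff H h2 a).2 ha) (TrAlg.faithful H) (rA H) (epsA H) c (tA H) hc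
    (by
      apply Units.ext
      rw [coe_epsA, hχc]
      simp)
    (rA_add H) (rb P) (fun g => (res_tA H h2 g).symm)
    (fun g => by rw [coe_epsA, AlgHom.commutes]; rfl) hM
  refine ⟨ρ, L, Φ, fun g w => a1 g w, a2, a3, fun g => by rw [a4, coe_epsA], a5, fun g g' h => ?_⟩
  apply a6
  ext v
  exact LinearMap.congr_fun h v

end Abs

end Fermat.Agent.S43.Mid

end
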