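import Mathlib

/-!
# S43 / MID / Abs : the trace algebra of an abstract Hecke--Galois module

`D : Dat k V G ι` : a vector space `V` over `k` with commuting operators `τ i` (`= T_ℓ`), `τ i - θ i` nilpotent,
an action `r` of a group `G` commuting with the `τ i`, a character `d : G →* kˣ`, such that
`r g + d g • r g⁻¹` lies in `A := k[τ i]` for all `g` (Eichler--Shimura + Chebotarev) and every `τ i` is of this form.

Output: `D.A` (commutative `k`-algebra, finite over `k`, acting faithfully on `V`), `D.rA : G →* End_A V`, `D.t : G → A`,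
`D.hCH`, `D.π : A →ₐ[k] k` with `π (τ i) = θ i`, nilpotent kernel, `π a ≠ 0 → IsUnit a`, `A` generated by the `t g`.
Pure Mathlib.
-/

set_option autoImplicit false

namespace Fermat.Agent.S43.Mid

open Module

/-- abstract Hecke--Galois datum. -/
structure Dat (k : Type*) [Field k] (V : Type*) [AddCommGroup V] [Module k V] (G : Type*) [Group G]
    (ι : Type*) where
  τ : ι → Module.End k V
  θ : ι → k
  comm : ∀ i j, Commute (τ i) (τ j)
  nil : ∀ i, IsNilpotent (τ i - algebraMap k (Module.End k V) (θ i))
  r : G →* Module.End k V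
  rcomm : ∀ g i, Commute (r g) (τ i)
  d : G →* kˣ
  ch : ∀ g, r g + (d g : k) • r g⁻¹ ∈ Algebra.adjoin k (Set.range τ)
  gen : ∀ i, ∃ g, r g + (d g : k) • r g⁻¹ = τ i

variable {k : Type*} [Field k] {V : Type*} [AddCommGroup V] [Module k V] {G : Type*} [Group G]
  {ι : Type*}

namespace Dat

variable (D : Dat k V G ι)

/-- the Hecke (= trace) algebra. -/
def A : Subalgebra k (Module.End k V) := Algebra.adjoin k (Set.range D.τ)

theorem mul_comm' (a b : D.A) : a * b = b * a := by
  have h : IsMulCommutative (Algebra.adjoin k (Set.range D.τ)) :=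
    Algebra.isMulCommutative_adjoin k (by
      rintro _ ⟨i, rfl⟩ _ ⟨j, rfl⟩
      exact D.comm i j)
  exact h.is_comm.comm a b

noncomputable instance : CommRing D.A :=
  { (inferInstance : Ring D.A) with mul_comm := D.mul_comm' }

theorem smul_def (a : D.A) (v : V) : a • v = (a : Module.End k V) v := rfl

instance : SMulCommClass D.A D.A V :=
  ⟨fun a b v => by rw [← mul_smul, ← mul_smul, mul_comm]⟩

theorem faithful (a : D.A) (h : ∀ v : V, a • v = 0) : a = 0 := by
  apply Subtype.ext
  apply LinearMap.ext
  intro v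
  exact h v

/-- `τ i` as an element of `A`. -/
def τA (i : ι) : D.A := ⟨D.τ i, Algebra.subset_adjoin ⟨i, rfl⟩⟩

theorem commute_r (g : G) (a : D.A) : Commute (D.r g) (a : Module.End k V) := by
  have h : D.A ≤ Subalgebra.centralizer k {D.r g} := by
    refine Algebra.adjoin_le ?_
    rintro _ ⟨i, rfl⟩
    rw [SetLike.mem_coe, Subalgebra.mem_centralizer_iff]
    intro y hy
    rw [Set.mem_singleton_iff] at hy
    subst hy
    exact D.rcomm g i
  have h2 := h a.2
  rw [Subalgebra.mem_centralizer_iff] at h2
  exact h2 _ rfl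

/-- the action of `G`, `A`-linearly. -/
def rA : G →* Module.End D.A V where
  toFun g :=
    { toFun := fun v => D.r g v
      map_add' := fun v w => map_add _ v w
      map_smul' := fun a v => by
        have h := D.commute_r g a
        have h2 := congrArg (fun f : Module.End k V => f v) h.eq
        simpa [smul_def, Module.End.mul_apply] using h2 }
  map_one' := by
    ext v
    simp
  map_mul' g h := by
    ext v
    simp [Module.End.mul_apply]

@[simp] theorem rA_apply (g : G) (v : V) : D.rA g v = D.r g v := rfl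

/-- the trace function. -/
def t (g : G) : D.A := ⟨D.r g + (D.d g : k) • D.r g⁻¹, D.ch g⟩

/-- the determinant, with values in `Aˣ`. -/
noncomputable def ε : G →* D.Aˣ := (Units.map (algebraMap k D.A).toMonoidHom).comp D.d

theorem ε_val (g : G) : ((D.ε g : D.Aˣ) : D.A) = algebraMap k D.A (D.d g) := rfl

theorem algebraMap_smul' (c : k) (v : V) : (algebraMap k D.A c) • v = c • v := by
  rw [smul_def]
  rfl

/-- **Cayley--Hamilton**. -/
theorem hCH (g : G) :
    D.rA g + ((D.ε g : D.Aˣ) : D.A) • D.rA g⁻¹ = D.t g • (1 : Module.End D.A V) := by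
  ext v
  simp only [LinearMap.add_apply, LinearMap.smul_apply, rA_apply, Module.End.one_apply, ε_val,
    algebraMap_smul']
  rfl

theorem t_gen (i : ι) : ∃ g, D.t g = D.τA i := by
  obtain ⟨g, hg⟩ := D.gen i
  exact ⟨g, Subtype.ext hg⟩

/-- `A` is generated by the traces. -/
theorem adjoin_t : Algebra.adjoin k (Set.range D.t) = ⊤ := by
  rw [eq_top_iff]
  rintro ⟨x, hx⟩ -
  have key : ∀ (y : Module.End k V) (hy : y ∈ Algebra.adjoin k (Set.range D.τ)),
      (⟨y, hy⟩ : D.A) ∈ Algebra.adjoin k (Set.range D.t) := by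
    intro y hy
    induction hy using Algebra.adjoin_induction with
    | mem y hy =>
      obtain ⟨i, rfl⟩ := hy
      obtain ⟨g, hg⟩ := D.t_gen i
      exact Algebra.subset_adjoin ⟨g, hg⟩
    | algebraMap c => exact Subalgebra.algebraMap_mem _ c
    | add y z hy hz h1 h2 => exact Subalgebra.add_mem _ h1 h2
    | mul y z hy hz h1 h2 => exact Subalgebra.mul_mem _ h1 h2
  exact key x hx

theorem nilA (i : ι) : IsNilpotent (D.τA i - algebraMap k D.A (D.θ i)) := by
  obtain ⟨n, hn⟩ := D.nil i
  refine ⟨n, Subtype.ext ?_⟩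
  simpa [τA] using hn

/-- every element of `A` is a scalar plus a nilpotent. -/
theorem exists_scalar (a : D.A) : ∃ c : k, IsNilpotent (a - algebraMap k D.A c) := by
  obtain ⟨x, hx⟩ := a
  have key : ∀ (y : Module.End k V) (hy : y ∈ Algebra.adjoin k (Set.range D.τ)),
      ∃ c : k, IsNilpotent ((⟨y, hy⟩ : D.A) - algebraMap k D.A c) := by
    intro y hy
    induction hy using Algebra.adjoin_induction with
    | mem y hy =>
      obtain ⟨i, rfl⟩ := hy
      exact ⟨D.θ i, D.nilA i⟩
    | algebraMap c =>
      refine ⟨c, ?_⟩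
      have : ((⟨algebraMap k (Module.End k V) c, Subalgebra.algebraMap_mem _ c⟩ : D.A)
          - algebraMap k D.A c) = 0 := sub_eq_zero.2 rfl
      rw [this]
      exact IsNilpotent.zero
    | add y z hy hz h1 h2 =>
      obtain ⟨c, hc⟩ := h1
      obtain ⟨c', hc'⟩ := h2
      refine ⟨c + c', ?_⟩
      have e : ((⟨y + z, Subalgebra.add_mem _ hy hz⟩ : D.A) - algebraMap k D.A (c + c'))
          = ((⟨y, hy⟩ : D.A) - algebraMap k D.A c) + ((⟨z, hz⟩ : D.A) - algebraMap k D.A c') := by
        rw [map_add]
        have : (⟨y + z, Subalgebra.add_mem _ hy hz⟩ : D.A) = ⟨y, hy⟩ + ⟨z, hz⟩ := rfl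
        rw [this]
        ring
      rw [e]
      exact (Commute.all _ _).isNilpotent_add hc hc'
    | mul y z hy hz h1 h2 =>
      obtain ⟨c, hc⟩ := h1
      obtain ⟨c', hc'⟩ := h2
      refine ⟨c * c', ?_⟩
      have e : ((⟨y * z, Subalgebra.mul_mem _ hy hz⟩ : D.A) - algebraMap k D.A (c * c'))
          = ((⟨y, hy⟩ : D.A) - algebraMap k D.A c) * ⟨z, hz⟩
            + algebraMap k D.A c * ((⟨z, hz⟩ : D.A) - algebraMap k D.A c') := by
        rw [map_mul]
        have : (⟨y * z, Subalgebra.mul_mem _ hy hz⟩ : D.A) = ⟨y, hy⟩ * ⟨z, hz⟩ := rfl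
        rw [this]
        ring
      rw [e]
      exact (Commute.all _ _).isNilpotent_add ((Commute.all _ _).isNilpotent_mul_right hc)
        ((Commute.all _ _).isNilpotent_mul_left hc')
  exact key x hx

variable [Nontrivial V]

instance : Nontrivial D.A := by
  refine ⟨0, 1, fun h => ?_⟩
  obtain ⟨v, hv⟩ := exists_ne (0 : V)
  apply hv
  have h2 : (1 : D.A) • v = (0 : D.A) • v := by rw [h]
  simpa using h2

theorem scalar_unique {a : D.A} {c c' : k} (h : IsNilpotent (a - algebraMap k D.A c))
    (h' : IsNilpotent (a - algebraMap k D.A c')) : c = c' := by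
  have h1 : IsNilpotent (algebraMap k D.A (c' - c)) := by
    have e : algebraMap k D.A (c' - c) = (a - algebraMap k D.A c) - (a - algebraMap k D.A c') := by
      rw [map_sub]; ring
    rw [e]
    exact (Commute.all _ _).isNilpotent_sub h h'
  obtain ⟨n, hn⟩ := h1
  rw [← map_pow] at hn
  have h2 : (c' - c) ^ n = 0 := (algebraMap k D.A).injective (by rw [hn, map_zero])
  by_contra hne
  exact (pow_ne_zero n (sub_ne_zero.2 (Ne.symm hne))) h2

/-- the residue map, as a function. -/
noncomputable def πf (a : D.A) : k := (D.exists_scalar a).choose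

theorem πf_spec (a : D.A) : IsNilpotent (a - algebraMap k D.A (D.πf a)) :=
  (D.exists_scalar a).choose_spec

theorem πf_eq {a : D.A} {c : k} (h : IsNilpotent (a - algebraMap k D.A c)) : D.πf a = c :=
  D.scalar_unique (D.πf_spec a) h

/-- the residue map `A → k`. -/
noncomputable def π : D.A →ₐ[k] k :=
  AlgHom.ofLinearMap
    { toFun := D.πf
      map_add' := fun a b => by
        apply D.πf_eq
        have e : a + b - algebraMap k D.A (D.πf a + D.πf b)
            = (a - algebraMap k D.A (D.πf a)) + (b - algebraMap k D.A (D.πf b)) := by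
          rw [map_add]; ring
        rw [e]
        exact (Commute.all _ _).isNilpotent_add (D.πf_spec a) (D.πf_spec b)
      map_smul' := fun c a => by
        apply D.πf_eq
        have e : c • a - algebraMap k D.A ((RingHom.id k) c • D.πf a)
            = algebraMap k D.A c * (a - algebraMap k D.A (D.πf a)) := by
          rw [RingHom.id_apply, smul_eq_mul, map_mul, Algebra.smul_def]; ring
        rw [e]
        exact (Commute.all _ _).isNilpotent_mul_left (D.πf_spec a) }
    (by
      show D.πf 1 = 1
      apply D.πf_eq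
      rw [map_one, sub_self]
      exact IsNilpotent.zero)
    (fun a b => by
      show D.πf (a * b) = D.πf a * D.πf b
      apply D.πf_eq
      have e : a * b - algebraMap k D.A (D.πf a * D.πf b)
          = (a - algebraMap k D.A (D.πf a)) * b
            + algebraMap k D.A (D.πf a) * (b - algebraMap k D.A (D.πf b)) := by
        rw [map_mul]; ring
      rw [e]
      exact (Commute.all _ _).isNilpotent_add ((Commute.all _ _).isNilpotent_mul_right (D.πf_spec a))
        ((Commute.all _ _).isNilpotent_mul_left (D.πf_spec b)))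

theorem π_spec (a : D.A) : IsNilpotent (a - algebraMap k D.A (D.π a)) := D.πf_spec a

theorem π_eq {a : D.A} {c : k} (h : IsNilpotent (a - algebraMap k D.A c)) : D.π a = c := D.πf_eq h

theorem π_τA (i : ι) : D.π (D.τA i) = D.θ i := D.π_eq (D.nilA i)

theorem isNilpotent_of_π {a : D.A} (h : D.π a = 0) : IsNilpotent a := by
  have := D.π_spec a
  rwa [h, map_zero, sub_zero] at this

theorem isUnit_of_π {a : D.A} (h : D.π a ≠ 0) : IsUnit a := by
  have h1 := D.π_spec a
  have h2 : IsUnit (algebraMap k D.A (D.π a)) := (IsUnit.mk0 _ h).map (algebraMap k D.A)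
  have h3 := h1.isUnit_add_left_of_commute h2 (Commute.all _ _)
  simpa using h3

theorem ker_π_le : (RingHom.ker D.π : Ideal D.A) ≤ nilradical D.A := by
  intro a ha
  rw [mem_nilradical]
  exact D.isNilpotent_of_π ha

variable [FiniteDimensional k V]

instance : Module.Finite k D.A := by
  unfold A
  infer_instance

theorem ker_π_nilpotent : ∃ N, (RingHom.ker D.π : Ideal D.A) ^ N = ⊥ := by
  have h1 : IsNoetherian k D.A := inferInstance
  have h2 : IsNoetherianRing D.A := isNoetherian_of_tower k h1
  obtain ⟨N, hN⟩ := IsNoetherianRing.isNilpotent_nilradical D.A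
  refine ⟨N, ?_⟩
  rw [eq_bot_iff]
  calc (RingHom.ker D.π : Ideal D.A) ^ N ≤ nilradical D.A ^ N := Ideal.pow_right_mono D.ker_π_le N
    _ = ⊥ := hN

end Dat

end Fermat.Agent.S43.Mid
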