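import Fermat.Agent.S43.Mid.Main

/-!
# S43 / MID / Conc : the hypotheses of `mid_main`

* `quadHyp_of_es` : `QuadHyp P X` for an ABSTRACT `G_ℚ`-module `X` with operators `T ℓ` commuting with `G_ℚ`, smooth,
  Eichler--Shimura at the primes `ℓ ∉ B`, `T ℓ - a_ℓ(W₀)` locally nilpotent (= fields `T_gal`, `smooth`, `es`, `nil` of
  `Top0.LevelData`);
* `irrM_of_habs` : the irreducibility hypothesis `hM` of `mid_main` from `(rho P).IsAbsolutelyIrreducible`.
-/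

set_option autoImplicit false

noncomputable section

namespace Fermat.Agent.S43.Mid

open Fermat.Agent.GAL Fermat.Agent.MR.E Fermat.Agent.MR.Glue Fermat.Agent.S43.BigImg
open Fermat.Agent.S43.GMA Fermat.Agent.S43.Exact Fermat.Agent.S56 Fermat.Agent.S43.CH
open AlgebraicCurve ModularCurve Fermat.Agent.S24 Polynomial
open scoped TensorProduct

theorem commute_aeval {R : Type*} [Ring R] (a x : R) (h : Commute x a) (Q : ℤ[X]) :
    Commute x (aeval a Q) := by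
  induction Q using Polynomial.induction_on' with
  | add p q hp hq =>
    rw [_root_.map_add]
    exact hp.add_right hq
  | monomial n c =>
    rw [aeval_monomial]
    exact (Commute.mul_right (Algebra.commutes c x).symm (h.pow_right n))

theorem smul_eq_of_agree {X : Type*} [AddCommGroup X] [DistribMulAction GQ X]
    {F : IntermediateField ℚ (AlgebraicClosure ℚ)}
    (hF : ∀ σ : GQ, (∀ z ∈ F, σ z = z) → ∀ x : X, σ • x = x) {g s : GQ}
    (h : ∀ z ∈ F, s z = g z) (x : X) : s • x = g • x := by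
  have h1 : (g⁻¹ * s) • x = x := by
    apply hF
    intro z hz
    rw [AlgEquiv.mul_apply, h z hz, ← AlgEquiv.mul_apply, inv_mul_cancel, AlgEquiv.one_apply]
  rw [mul_smul] at h1
  calc s • x = g • g⁻¹ • s • x := by rw [smul_smul, mul_inv_cancel, one_smul]
    _ = g • x := by rw [h1]

/-- **`QuadHyp` from Eichler--Shimura + Frobenius density.** -/
theorem quadHyp_of_es (P : FreyPackage) (W₀ : WeierstrassCurve ℤ)
    (hW₀ : W₀.IsIntegralModelOf P.freyCurve)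
    {X : Type*} [AddCommGroup X] [DistribMulAction GQ X] (T : ℕ → AddMonoid.End X) (B : Finset ℕ)
    (T_gal : ∀ ℓ, ℓ.Prime → ℓ ∉ B → ∀ (σ : GQ) (x : X), T ℓ (σ • x) = σ • T ℓ x)
    (smooth : ∃ F : IntermediateField ℚ (AlgebraicClosure ℚ), FiniteDimensional ℚ F ∧
      ∀ σ : GQ, (∀ z ∈ F, σ z = z) → ∀ x : X, σ • x = x)
    (es : ∀ ℓ, ℓ.Prime → ℓ ∉ B → ∀ A : ValuationSubring (AlgebraicClosure ℚ), A.LiesOverPrime ℓ →
      ∀ φ : GQ, A.IsFrobeniusAt φ ℓ → ∀ x : X, φ • φ • x - T ℓ (φ • x) + ℓ • x = 0)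
    (nil : ∀ ℓ, ℓ.Prime → ℓ ∉ B → ∀ x : X,
      ∃ n : ℕ, ((T ℓ - (W₀.apOfModel ℓ : AddMonoid.End X)) ^ n) x = 0) :
    QuadHyp P X := by
  intro g
  have : NeZero P.p := ⟨P.pp.ne_zero⟩
  obtain ⟨S, hS⟩ := frobMod_Ep P W₀ hW₀
  obtain ⟨F', hF', h'⟩ := hS.cont
  obtain ⟨F₁, hF₁, h₁⟩ := smooth
  obtain ⟨F₂, hF₂, h₂⟩ := exists_mu_field P.p
  obtain ⟨ℓ, A, σ, b, hℓ, hℓB, hA, hσ, hag⟩ :=
    Fermat.Agent.Lib.FrobDensity.gal_frobeniusDensity (F₁ ⊔ F₂ ⊔ F') inferInstance g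
      (B ∪ S ∪ {P.p})
  have hB : ℓ ∉ B := fun h => hℓB (Finset.mem_union_left _ (Finset.mem_union_left _ h))
  have hSn : ℓ ∉ S := fun h => hℓB (Finset.mem_union_left _ (Finset.mem_union_right _ h))
  have hℓp : ℓ ≠ P.p := fun h => hℓB (Finset.mem_union_right _ (Finset.mem_singleton.2 h))
  have hm : ¬ ℓ ∣ P.p := fun h => hℓp ((Nat.prime_dvd_prime_iff_eq hℓ P.pp).1 h)
  have hgX : ∀ x : X, (σ ^ b) • x = g • x :=
    smul_eq_of_agree h₁ (fun z hz => hag z ((le_sup_left.trans le_sup_left : F₁ ≤ F₁ ⊔ F₂ ⊔ F') hz))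
  have hgE : ∀ y : Ep P, (σ ^ b) • y = g • y :=
    smul_eq_of_agree h' (fun z hz => hag z (le_sup_right (a := F₁ ⊔ F₂) hz))
  set a : ℤ := W₀.apOfModel ℓ with ha
  refine ⟨aeval (T ℓ) (luc ℓ b), (luc ℓ b).eval a, ℓ ^ b, ?_, ?_, ?_, ?_, ?_⟩
  · intro h x
    have hc : Commute (DistribMulAction.toAddMonoidEnd GQ X h) (T ℓ) := by
      apply AddMonoidHom.ext
      intro z
      exact (T_gal ℓ hℓ hB h z).symm
    exact (DFunLike.congr_fun (commute_aeval _ _ hc (luc ℓ b)).eq x).symm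
  · intro x
    set Tσ : AddMonoid.End X := DistribMulAction.toAddMonoidEnd GQ X σ with hT
    have hc : Commute Tσ (T ℓ) := by
      apply AddMonoidHom.ext
      intro z
      exact (T_gal ℓ hℓ hB σ z).symm
    have hq : Tσ * Tσ - T ℓ * Tσ + (((ℓ : ℕ) : ℤ) : AddMonoid.End X) = 0 := by
      apply AddMonoidHom.ext
      intro z
      show σ • σ • z - T ℓ (σ • z) + (((ℓ : ℕ) : ℤ) : AddMonoid.End X) z = 0
      rw [Int.cast_natCast, AddMonoid.End.natCast_apply]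
      exact es ℓ hℓ hB A hA σ hσ z
    have h := quad_pow Tσ (T ℓ) (ℓ : ℤ) hc hq b
    rw [hT, ← _root_.map_pow] at h
    have e : (((ℓ : ℕ) : ℤ) : AddMonoid.End X) ^ b = ((ℓ ^ b : ℕ) : AddMonoid.End X) := by
      push_cast; rfl
    rw [e] at h
    have h3 : (σ ^ b) • (σ ^ b) • x - aeval (T ℓ) (luc ℓ b) ((σ ^ b) • x)
        + ((ℓ ^ b : ℕ) : AddMonoid.End X) x = 0 := DFunLike.congr_fun h x
    rw [AddMonoid.End.natCast_apply, hgX, hgX] at h3
    exact h3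
  · intro x
    obtain ⟨N, hN⟩ := nil ℓ hℓ hB x
    refine ⟨N, ?_⟩
    obtain ⟨Q, hQ⟩ := aeval_sub_eval_pow (T ℓ) a (luc ℓ b) N
    rw [hQ]
    show aeval (T ℓ) Q (((T ℓ - (a : AddMonoid.End X)) ^ N) x) = 0
    rw [hN, _root_.map_zero]
  · intro μ hμ
    rw [← hag μ ((le_sup_right.trans le_sup_left : F₂ ≤ F₁ ⊔ F₂ ⊔ F') (h₂ μ hμ))]
    have key : ∀ c : ℕ, ∀ ν : AlgebraicClosure ℚ, ν ^ P.p = 1 → (σ ^ c) ν = ν ^ (ℓ ^ c) := by
      intro c
      induction c with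
      | zero => intro ν _; simp
      | succ c ih =>
        intro ν hν
        rw [pow_succ, AlgEquiv.mul_apply, S31.frobenius_apply_root A hℓ hA hσ hm hν,
          ih _ (by rw [← pow_mul, mul_comm, pow_mul, hν, one_pow]), ← pow_mul, pow_succ, mul_comm]
    exact key b μ hμ
  · intro y
    set Tσ : AddMonoid.End (Ep P) := DistribMulAction.toAddMonoidEnd GQ (Ep P) σ with hT
    have hq : Tσ * Tσ - ((a : ℤ) : AddMonoid.End (Ep P)) * Tσ
        + (((ℓ : ℕ) : ℤ) : AddMonoid.End (Ep P)) = 0 := by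
      apply AddMonoidHom.ext
      intro z
      show σ • σ • z - ((a : ℤ) : AddMonoid.End (Ep P)) (σ • z)
        + (((ℓ : ℕ) : ℤ) : AddMonoid.End (Ep P)) z = 0
      rw [AddMonoid.End.intCast_apply, AddMonoid.End.intCast_apply]
      exact hS.frob ℓ hℓ hSn A hA σ hσ z
    have h := quad_pow Tσ ((a : ℤ) : AddMonoid.End (Ep P)) (ℓ : ℤ) (Int.cast_commute _ _).symm hq b
    rw [aeval_intCast, hT, ← _root_.map_pow] at h
    have e : (((ℓ : ℕ) : ℤ) : AddMonoid.End (Ep P)) ^ b = ((ℓ ^ b : ℕ) : AddMonoid.End (Ep P)) := by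
      push_cast; rfl
    rw [e] at h
    have h3 : (σ ^ b) • (σ ^ b) • y - (((luc ℓ b).eval a : ℤ) : AddMonoid.End (Ep P)) ((σ ^ b) • y)
        + ((ℓ ^ b : ℕ) : AddMonoid.End (Ep P)) y = 0 := DFunLike.congr_fun h y
    rw [AddMonoid.End.natCast_apply, AddMonoid.End.intCast_apply, hgE, hgE] at h3
    exact h3

/-- the irreducibility hypothesis of `mid_main`. -/
theorem irrM_of_habs (P : FreyPackage) (habs : (rho P).IsAbsolutelyIrreducible)
    (U : Submodule (kk P) (Fin 2 → kk P)) (hU : ∀ g, ∀ u ∈ U, (rb P g).1.mulVec u ∈ U) :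
    U = ⊥ ∨ U = ⊤ := by
  by_contra hcon
  push Not at hcon
  obtain ⟨h0, h1⟩ := hcon
  obtain ⟨v, hvU, hv⟩ := (Submodule.ne_bot_iff U).1 h0
  have hfr : Module.finrank (kk P) U = 1 := by
    have hlt : Module.finrank (kk P) U < Module.finrank (kk P) (Fin 2 → kk P) :=
      Submodule.finrank_lt h1
    rw [Module.finrank_fin_fun] at hlt
    have hpos : 0 < Module.finrank (kk P) U := by
      rw [Module.finrank_pos_iff]
      exact (Submodule.nontrivial_iff_ne_bot).2 h0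
    omega
  have hspan := (finrank_eq_one_iff_of_nonzero' (⟨v, hvU⟩ : U)
    (fun h => hv (congrArg Subtype.val h))).1 hfr
  obtain ⟨w, hw, hw2⟩ := T.MatIrr_exists_eigen (rho P) ⊤ v hv (fun g _ => by
    obtain ⟨c, hc⟩ := hspan ⟨_, hU g v hvU⟩
    exact ⟨c, (congrArg Subtype.val hc).symm⟩)
  obtain ⟨V, hV1, hV2, hV3⟩ := T.MatIrr_line (rho P) (AlgebraicClosure (kk P)) ⊤ w hw hw2
  rcases habs V (fun σ x hx => hV1 σ (Subgroup.mem_top _) x hx) with h | h
  · exact hV2 h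
  · exact hV3 h

end Fermat.Agent.S43.Mid

end
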